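/-
LR-A (helper2): abstract ping-pong lemma for amalgamated products of two subgroups.

`K` a group acting on `X`, `G : Bool → Subgroup K`, `C ≤ G i`.  If there are disjoint nonempty
sets `Xs false`, `Xs true` with `(G i \ C) • Xs i ⊆ Xs (!i)` and `[G i : C] ≥ 3` (in the form
`∀ g ∈ G i \ C, ∃ a ∈ G i \ C, a * g ∉ C`), then the canonical map
`PushoutI (C ↪ G i) → K` is injective, so `G false ⊔ G true` is the amalgam `G false *_C G true`.
-/
import Mathlib

set_option autoImplicit false

namespace Fermat.Agent.LR

open Monoid Monoid.CoprodI Monoid.PushoutI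

section PingPong

variable {K : Type*} [Group K] {X : Type*} [MulAction K X]

/-- Ping-pong data for two subgroups `G false`, `G true` of `K` over `C`. -/
structure LraPP (G : Bool → Subgroup K) (C : Subgroup K) (Xs : Bool → Set X) : Prop where
  le : ∀ i, C ≤ G i
  pp : ∀ i, ∀ g ∈ G i, g ∉ C → ∀ x ∈ Xs i, g • x ∈ Xs (!i)
  disj : Disjoint (Xs false) (Xs true)
  ne : ∀ i, (Xs i).Nonempty
  idx : ∀ i, ∀ g ∈ G i, g ∉ C → ∃ a ∈ G i, a ∉ C ∧ a * g ∉ C

/-- Reduced alternating lists of letters. -/
def LraRed (G : Bool → Subgroup K) (C : Subgroup K) (L : List (Bool × K)) : Prop :=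
  (∀ s ∈ L, s.2 ∈ G s.1 ∧ s.2 ∉ C) ∧ L.IsChain (fun s t => s.1 ≠ t.1)

/-- index of the last letter of `s :: L`. -/
def lraLast : Bool × K → List (Bool × K) → Bool
  | s, [] => s.1
  | _, t :: L => lraLast t L

omit [MulAction K X] in
theorem lraRed_tail {G : Bool → Subgroup K} {C : Subgroup K} {s : Bool × K}
    {L : List (Bool × K)} (h : LraRed G C (s :: L)) : LraRed G C L :=
  ⟨fun t ht => h.1 t (List.mem_cons_of_mem _ ht), h.2.tail⟩

theorem lra_pp_list {G : Bool → Subgroup K} {C : Subgroup K} {Xs : Bool → Set X}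
    (h : LraPP G C Xs) : ∀ (L : List (Bool × K)) (s : Bool × K), LraRed G C (s :: L) →
      ∀ x ∈ Xs (lraLast s L), ((s :: L).map Prod.snd).prod • x ∈ Xs (!s.1) := by
  intro L
  induction L with
  | nil =>
    intro s hs x hx
    have := hs.1 s (by simp)
    simpa [lraLast] using h.pp s.1 s.2 this.1 this.2 x hx
  | cons t L ih =>
    intro s hs x hx
    have ht := ih t (lraRed_tail hs) x hx
    have hne : s.1 ≠ t.1 := (List.isChain_cons_cons.1 hs.2).1
    have hst : (!t.1) = s.1 := by
      cases hs1 : s.1 <;> cases ht1 : t.1 <;> simp_all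
    rw [hst] at ht
    have hs' := hs.1 s (by simp)
    have := h.pp s.1 s.2 hs'.1 hs'.2 _ ht
    rw [List.map_cons, List.prod_cons, mul_smul]
    exact this

theorem lra_prod_ne_one {G : Bool → Subgroup K} {C : Subgroup K} {Xs : Bool → Set X}
    (h : LraPP G C Xs) (L : List (Bool × K)) (s : Bool × K) (hs : LraRed G C (s :: L)) :
    ((s :: L).map Prod.snd).prod ≠ 1 := by
  intro hP
  have hs' := hs.1 s (by simp)
  have hdisj : ∀ i, ∀ x, x ∈ Xs i → x ∈ Xs (!i) → False := by
    intro i x h1 h2
    cases i
    · exact (Set.disjoint_left.1 h.disj) h1 h2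
    · exact (Set.disjoint_left.1 h.disj) h2 h1
  by_cases hl : lraLast s L = s.1
  · obtain ⟨x, hx⟩ := h.ne s.1
    have := lra_pp_list h L s hs x (by rw [hl]; exact hx)
    rw [hP, one_smul] at this
    exact hdisj _ x hx this
  · -- last index is `!s.1`; conjugation trick
    have hl' : lraLast s L = !s.1 := by
      cases h1 : lraLast s L <;> cases h2 : s.1 <;> simp_all
    obtain ⟨a, haG, haC, hag⟩ := h.idx s.1 s.2 hs'.1 hs'.2
    obtain ⟨x, hx⟩ := h.ne s.1
    have hainv : a⁻¹ ∈ G s.1 ∧ a⁻¹ ∉ C := ⟨inv_mem haG, fun hc => haC (by simpa using inv_mem hc)⟩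
    have hy : a⁻¹ • x ∈ Xs (!s.1) := h.pp s.1 _ hainv.1 hainv.2 x hx
    -- the modified list
    have hL : L ≠ [] := by
      rintro rfl
      exact hl rfl
    obtain ⟨t, L', rfl⟩ := List.exists_cons_of_ne_nil hL
    let s' : Bool × K := (s.1, a * s.2)
    have hs'red : LraRed G C (s' :: t :: L') := by
      refine ⟨?_, ?_⟩
      · intro u hu
        rcases List.mem_cons.1 hu with rfl | hu
        · exact ⟨mul_mem haG hs'.1, hag⟩
        · exact hs.1 u (List.mem_cons_of_mem _ hu)
      · have := hs.2
        rw [List.isChain_cons_cons] at this ⊢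
        exact this
    have hlast : lraLast s' (t :: L') = !s.1 := by
      have : lraLast s' (t :: L') = lraLast s (t :: L') := rfl
      rw [this, hl']
    have := lra_pp_list h (t :: L') s' hs'red (a⁻¹ • x) (by rw [hlast]; exact hy)
    have hprod : ((s' :: t :: L').map Prod.snd).prod = a * ((s :: t :: L').map Prod.snd).prod := by
      simp [s', List.map_cons, List.prod_cons, mul_assoc]
    rw [hprod, hP, mul_one, smul_inv_smul] at this
    exact hdisj _ x hx this

end PingPong

section Lift

variable {K : Type*} [Group K]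

/-- The inclusions `C → G i`. -/
def lraIncl (G : Bool → Subgroup K) (C : Subgroup K) (hC : ∀ i, C ≤ G i) (i : Bool) :
    ↥C →* ↥(G i) := Subgroup.inclusion (hC i)

theorem lraIncl_injective (G : Bool → Subgroup K) (C : Subgroup K) (hC : ∀ i, C ≤ G i) (i : Bool) :
    Function.Injective (lraIncl G C hC i) := Subgroup.inclusion_injective (hC i)

/-- The canonical map from the amalgam to `K`. -/
def lraLift (G : Bool → Subgroup K) (C : Subgroup K) (hC : ∀ i, C ≤ G i) :
    PushoutI (lraIncl G C hC) →* K :=
  PushoutI.lift (fun i => (G i).subtype) C.subtype (by intro i; ext x; rfl)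

theorem lraLift_of (G : Bool → Subgroup K) (C : Subgroup K) (hC : ∀ i, C ≤ G i) (i : Bool)
    (g : ↥(G i)) : lraLift G C hC (PushoutI.of i g) = (g : K) := by
  simp [lraLift]

theorem lraLift_base (G : Bool → Subgroup K) (C : Subgroup K) (hC : ∀ i, C ≤ G i)
    (c : ↥C) : lraLift G C hC (PushoutI.base _ c) = (c : K) := by
  simp [lraLift]

theorem lraLift_range (G : Bool → Subgroup K) (C : Subgroup K) (hC : ∀ i, C ≤ G i) :
    (lraLift G C hC).range = G false ⊔ G true := by
  apply le_antisymm
  · rintro _ ⟨x, rfl⟩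
    induction x using PushoutI.induction_on with
    | of i g =>
      rw [lraLift_of]
      cases i
      · exact (le_sup_left : G false ≤ _) g.2
      · exact (le_sup_right : G true ≤ _) g.2
    | base c =>
      rw [lraLift_base]
      exact (le_sup_left : G false ≤ _) (hC false c.2)
    | mul x y hx hy =>
      rw [map_mul]
      exact mul_mem hx hy
  · rw [sup_le_iff]
    constructor
    · intro g hg
      exact ⟨PushoutI.of false ⟨g, hg⟩, lraLift_of G C hC false ⟨g, hg⟩⟩
    · intro g hg
      exact ⟨PushoutI.of true ⟨g, hg⟩, lraLift_of G C hC true ⟨g, hg⟩⟩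

theorem lraLift_ofCoprodI_prod (G : Bool → Subgroup K) (C : Subgroup K) (hC : ∀ i, C ≤ G i)
    (l : List (Σ i : Bool, ↥(G i))) :
    lraLift G C hC (PushoutI.ofCoprodI (l.map fun s => CoprodI.of s.2).prod) =
      (l.map fun s => ((s.2 : ↥(G s.1)) : K)).prod := by
  induction l with
  | nil => simp
  | cons s l ih =>
    rw [List.map_cons, List.prod_cons, map_mul, map_mul, ih, List.map_cons, List.prod_cons,
      PushoutI.ofCoprodI_of, lraLift_of]

variable {X : Type*} [MulAction K X]

theorem lraLift_injective {G : Bool → Subgroup K} {C : Subgroup K} {Xs : Bool → Set X}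
    (h : LraPP G C Xs) : Function.Injective (lraLift G C h.le) := by
  classical
  rw [injective_iff_map_eq_one]
  intro x hx
  obtain ⟨d⟩ := PushoutI.NormalWord.transversal_nonempty (lraIncl G C h.le) (lraIncl_injective G C h.le)
  let w : NormalWord d := NormalWord.equiv x
  have hxw : x = w.prod := (NormalWord.equiv.symm_apply_apply x).symm
  have hlift : lraLift G C h.le x =
      (w.head : K) * (w.toList.map fun s => ((s.2 : ↥(G s.1)) : K)).prod := by
    rw [hxw, NormalWord.prod, map_mul, lraLift_base, Word.prod, lraLift_ofCoprodI_prod]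
  -- letters are not in `C`
  have hletter : ∀ s ∈ w.toList, ((s.2 : ↥(G s.1)) : K) ∉ C := by
    intro s hs hc
    have hne : s.2 ≠ 1 := w.ne_one s hs
    have hmem : s.2 ∈ d.set s.1 := w.normalized s.1 s.2 (by simpa using hs)
    have hr : s.2 ∈ (lraIncl G C h.le s.1).range := ⟨⟨_, hc⟩, rfl⟩
    -- two decompositions of `s.2`
    have huniq := (d.compl s.1).existsUnique s.2
    have h1 : (⟨⟨s.2, hr⟩, ⟨1, d.one_mem s.1⟩⟩ :
        ↥(lraIncl G C h.le s.1).range × ↥(d.set s.1)) = ⟨⟨1, one_mem _⟩, ⟨s.2, hmem⟩⟩ := by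
      apply huniq.unique <;> simp
    have := congrArg (fun p => (p.2 : ↥(G s.1))) h1
    simp only at this
    exact hne this.symm
  rcases hw : w.toList with _ | ⟨s, t⟩
  · -- empty word
    rw [hw] at hlift
    simp only [List.map_nil, List.prod_nil, mul_one] at hlift
    rw [hx] at hlift
    have hhead : w.head = 1 := Subtype.ext hlift.symm
    rw [hxw, NormalWord.prod, hhead, Word.prod, hw]
    simp
  · exfalso
    rw [hw] at hlift
    let L : List (Bool × K) := t.map fun u => (u.1, ((u.2 : ↥(G u.1)) : K))
    let s' : Bool × K := (s.1, (w.head : K) * ((s.2 : ↥(G s.1)) : K))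
    have hs_mem : s ∈ w.toList := by rw [hw]; simp
    have hred : LraRed G C (s' :: L) := by
      refine ⟨?_, ?_⟩
      · intro u hu
        rcases List.mem_cons.1 hu with rfl | hu
        · refine ⟨mul_mem (h.le s.1 w.head.2) s.2.2, fun hc => hletter s hs_mem ?_⟩
          have := mul_mem (inv_mem w.head.2) hc
          simpa [s'] using this
        · obtain ⟨v, hv, rfl⟩ := List.mem_map.1 hu
          exact ⟨v.2.2, hletter v (by rw [hw]; exact List.mem_cons_of_mem _ hv)⟩
      · have hch := w.chain_ne
        rw [hw] at hch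
        rw [List.isChain_cons] at hch ⊢
        refine ⟨?_, ?_⟩
        · intro y hy
          simp only [L, List.head?_map, Option.mem_def, Option.map_eq_some_iff] at hy
          obtain ⟨v, hv, rfl⟩ := hy
          exact hch.1 v hv
        · exact (List.isChain_map _).2 hch.2
    have := lra_prod_ne_one h L s' hred
    apply this
    rw [hx] at hlift
    simp only [List.map_cons, List.prod_cons, s', L, List.map_map] at hlift ⊢
    rw [mul_assoc]
    exact hlift.symm

theorem lra_le_sup (G : Bool → Subgroup K) (i : Bool) : G i ≤ G false ⊔ G true := by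
  cases i
  · exact le_sup_left
  · exact le_sup_right

/-- The amalgam `G false *_C G true` is isomorphic to the subgroup `G false ⊔ G true`. -/
noncomputable def lraEquiv {G : Bool → Subgroup K} {C : Subgroup K} {Xs : Bool → Set X}
    (h : LraPP G C Xs) : PushoutI (lraIncl G C h.le) ≃* ↥(G false ⊔ G true) :=
  MulEquiv.ofBijective
    ((lraLift G C h.le).codRestrict (G false ⊔ G true)
      (fun x => by rw [← lraLift_range G C h.le]; exact ⟨x, rfl⟩))
    ⟨fun x y hxy => lraLift_injective h (congrArg Subtype.val hxy), fun y => by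
      have hy : (y : K) ∈ (lraLift G C h.le).range := by
        rw [lraLift_range G C h.le]; exact y.2
      obtain ⟨x, hx⟩ := hy
      exact ⟨x, Subtype.ext hx⟩⟩

theorem lraEquiv_coe {G : Bool → Subgroup K} {C : Subgroup K} {Xs : Bool → Set X}
    (h : LraPP G C Xs) (x : PushoutI (lraIncl G C h.le)) :
    ((lraEquiv h x : ↥(G false ⊔ G true)) : K) = lraLift G C h.le x := rfl

theorem lraEquiv_of {G : Bool → Subgroup K} {C : Subgroup K} {Xs : Bool → Set X}
    (h : LraPP G C Xs) (i : Bool) (g : ↥(G i)) :
    lraEquiv h (PushoutI.of i g) = ⟨(g : K), lra_le_sup G i g.2⟩ :=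
  Subtype.ext (by rw [lraEquiv_coe, lraLift_of])

/-- Universal property of the amalgam, stated on the subgroup `G false ⊔ G true`:
homomorphisms on `G false`, `G true` that agree on `C` glue uniquely. -/
theorem lra_existsUnique_hom {G : Bool → Subgroup K} {C : Subgroup K} {Xs : Bool → Set X}
    (h : LraPP G C Xs) {M : Type*} [Monoid M] (f : ∀ i, ↥(G i) →* M)
    (hf : ∀ c : ↥C, f false ⟨c, h.le false c.2⟩ = f true ⟨c, h.le true c.2⟩) :
    ∃! F : ↥(G false ⊔ G true) →* M, ∀ (i : Bool) (g : ↥(G i)),
      F ⟨(g : K), lra_le_sup G i g.2⟩ = f i g := by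
  let k : ↥C →* M := (f false).comp (lraIncl G C h.le false)
  have hk : ∀ i, (f i).comp (lraIncl G C h.le i) = k := by
    intro i
    cases i
    · rfl
    · ext c
      exact (hf c).symm
  let F0 : PushoutI (lraIncl G C h.le) →* M := PushoutI.lift f k hk
  refine ⟨F0.comp (lraEquiv h).symm.toMonoidHom, ?_, ?_⟩
  · intro i g
    have : (lraEquiv h).symm ⟨(g : K), lra_le_sup G i g.2⟩ = PushoutI.of i g := by
      rw [MulEquiv.symm_apply_eq, lraEquiv_of]
    simp only [MonoidHom.coe_comp, MulEquiv.coe_toMonoidHom, Function.comp_apply, this]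
    exact PushoutI.lift_of f k hk g
  · intro F' hF'
    have : F'.comp (lraEquiv h).toMonoidHom = F0 := by
      apply PushoutI.hom_ext
      · intro i
        ext g
        simp only [MonoidHom.coe_comp, MulEquiv.coe_toMonoidHom, Function.comp_apply, lraEquiv_of]
        rw [hF' i g]
        exact (PushoutI.lift_of f k hk g).symm
      · ext c
        have hb : (PushoutI.base (lraIncl G C h.le) c) =
            PushoutI.of false (lraIncl G C h.le false c) := by
          rw [PushoutI.of_apply_eq_base]
        simp only [MonoidHom.coe_comp, MulEquiv.coe_toMonoidHom, Function.comp_apply]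
        rw [hb, lraEquiv_of, hF' false]
        exact (PushoutI.lift_of f k hk _).symm
    ext y
    have := DFunLike.congr_fun this ((lraEquiv h).symm y)
    simpa using this

end Lift

end Fermat.Agent.LR
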