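/-
LR-A (helper2): the concrete groups.  Inside `SL(2,ℚ)`:
`lraA N` = image of `Γ₀(N)`, `lraB N q` = `δ⁻¹ Γ₀(N) δ` (`δ = diag(q,1)`), `lraC N q` = image of
`Γ₀(N q)`.  Ping-pong on `ℚ²` with the `q`-adic norm shows `lraA ⊔ lraB = lraA *_{lraC} lraB`.
-/
import Mathlib
import Fermat.Agent.Lib.LR.Amalgam.PingPong

set_option autoImplicit false

namespace Fermat.Agent.LR

open Matrix MatrixGroups CongruenceSubgroup

noncomputable section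

/-- `SL(2,ℤ) → SL(2,ℚ)`. -/
def lraCast : SL(2, ℤ) →* SL(2, ℚ) := SpecialLinearGroup.map (Int.castRingHom ℚ)

@[simp] theorem lraCast_apply (γ : SL(2, ℤ)) (i j : Fin 2) :
    lraCast γ i j = ((γ i j : ℤ) : ℚ) := rfl

theorem lraCast_injective : Function.Injective lraCast := by
  intro γ γ' h
  ext i j
  have := congrArg (fun g : SL(2, ℚ) => g i j) h
  simpa using this

/-- Conjugation by `diag(u,1)`: `[[a,b],[c,d]] ↦ [[a, u b],[u⁻¹ c, d]]`. -/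
def lraConjFun (u : ℚ) (hu : u ≠ 0) (g : SL(2, ℚ)) : SL(2, ℚ) :=
  ⟨!![g 0 0, u * g 0 1; u⁻¹ * g 1 0, g 1 1], by
    have h := g.det_coe
    rw [Matrix.det_fin_two] at h
    rw [Matrix.det_fin_two_of]
    field_simp
    linarith⟩

@[simp] theorem lraConjFun_00 (u : ℚ) (hu : u ≠ 0) (g : SL(2, ℚ)) :
    lraConjFun u hu g 0 0 = g 0 0 := rfl
@[simp] theorem lraConjFun_01 (u : ℚ) (hu : u ≠ 0) (g : SL(2, ℚ)) :
    lraConjFun u hu g 0 1 = u * g 0 1 := rfl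
@[simp] theorem lraConjFun_10 (u : ℚ) (hu : u ≠ 0) (g : SL(2, ℚ)) :
    lraConjFun u hu g 1 0 = u⁻¹ * g 1 0 := rfl
@[simp] theorem lraConjFun_11 (u : ℚ) (hu : u ≠ 0) (g : SL(2, ℚ)) :
    lraConjFun u hu g 1 1 = g 1 1 := rfl

theorem lraConjFun_mul (u : ℚ) (hu : u ≠ 0) (g h : SL(2, ℚ)) :
    lraConjFun u hu (g * h) = lraConjFun u hu g * lraConjFun u hu h := by
  ext i j
  fin_cases i <;> fin_cases j <;>
    simp [Matrix.mul_apply, Fin.sum_univ_two] <;> field_simp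

theorem lraConjFun_inv (u : ℚ) (hu : u ≠ 0) (g : SL(2, ℚ)) :
    lraConjFun u⁻¹ (inv_ne_zero hu) (lraConjFun u hu g) = g := by
  ext i j
  fin_cases i <;> fin_cases j <;> simp <;> field_simp

/-- Conjugation by `δ = diag(q,1)` as an automorphism of `SL(2,ℚ)`. -/
def lraConj (q : ℕ) (hq : q ≠ 0) : SL(2, ℚ) ≃* SL(2, ℚ) where
  toFun := lraConjFun q (Nat.cast_ne_zero.2 hq)
  invFun := lraConjFun (q : ℚ)⁻¹ (inv_ne_zero (Nat.cast_ne_zero.2 hq))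
  left_inv g := lraConjFun_inv _ _ g
  right_inv g := by
    have := lraConjFun_inv (q : ℚ)⁻¹ (inv_ne_zero (Nat.cast_ne_zero.2 hq)) g
    simpa using this
  map_mul' := lraConjFun_mul _ _

section entries
variable (q : ℕ) (hq : q ≠ 0) (g : SL(2, ℚ))
@[simp] theorem lraConj_00 : lraConj q hq g 0 0 = g 0 0 := rfl
@[simp] theorem lraConj_01 : lraConj q hq g 0 1 = (q : ℚ) * g 0 1 := rfl
@[simp] theorem lraConj_10 : lraConj q hq g 1 0 = (q : ℚ)⁻¹ * g 1 0 := rfl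
@[simp] theorem lraConj_11 : lraConj q hq g 1 1 = g 1 1 := rfl
@[simp] theorem lraConj_symm_00 : (lraConj q hq).symm g 0 0 = g 0 0 := rfl
@[simp] theorem lraConj_symm_01 : (lraConj q hq).symm g 0 1 = (q : ℚ)⁻¹ * g 0 1 := rfl
@[simp] theorem lraConj_symm_10 : (lraConj q hq).symm g 1 0 = (q : ℚ) * g 1 0 := by
  show ((q : ℚ)⁻¹)⁻¹ * g 1 0 = _
  rw [inv_inv]
@[simp] theorem lraConj_symm_11 : (lraConj q hq).symm g 1 1 = g 1 1 := rfl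
end entries

variable (N q : ℕ)

/-- image of `Γ₀(N)` in `SL(2,ℚ)`. -/
def lraA : Subgroup SL(2, ℚ) := (Gamma0 N).map lraCast

/-- image of `Γ₀(N q)` in `SL(2,ℚ)`. -/
def lraC : Subgroup SL(2, ℚ) := (Gamma0 (N * q)).map lraCast

/-- `δ⁻¹ Γ₀(N) δ`, `δ = diag(q,1)`. -/
def lraB (hq : q ≠ 0) : Subgroup SL(2, ℚ) := (lraA N).comap (lraConj q hq).toMonoidHom

variable {N q}

theorem mem_lraA {g : SL(2, ℚ)} : g ∈ lraA N ↔ ∃ γ, γ ∈ Gamma0 N ∧ lraCast γ = g := Iff.rfl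

theorem mem_lraC {g : SL(2, ℚ)} : g ∈ lraC N q ↔ ∃ γ, γ ∈ Gamma0 (N * q) ∧ lraCast γ = g :=
  Iff.rfl

theorem mem_lraB {hq : q ≠ 0} {g : SL(2, ℚ)} : g ∈ lraB N q hq ↔ lraConj q hq g ∈ lraA N :=
  Iff.rfl

theorem lra_Gamma0_mem_iff_dvd {M : ℕ} {γ : SL(2, ℤ)} : γ ∈ Gamma0 M ↔ (M : ℤ) ∣ γ 1 0 := by
  rw [Gamma0_mem, ZMod.intCast_zmod_eq_zero_iff_dvd]

theorem lraCast_mem_lraA {γ : SL(2, ℤ)} : lraCast γ ∈ lraA N ↔ γ ∈ Gamma0 N :=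
  ⟨fun ⟨_, h, he⟩ => lraCast_injective he ▸ h, fun h => ⟨γ, h, rfl⟩⟩

theorem lraCast_mem_lraC {γ : SL(2, ℤ)} : lraCast γ ∈ lraC N q ↔ γ ∈ Gamma0 (N * q) :=
  ⟨fun ⟨_, h, he⟩ => lraCast_injective he ▸ h, fun h => ⟨γ, h, rfl⟩⟩

theorem lraC_le_lraA : lraC N q ≤ lraA N := by
  rintro g ⟨γ, hγ, rfl⟩
  rw [lraCast_mem_lraA]
  rw [SetLike.mem_coe] at hγ
  rw [lra_Gamma0_mem_iff_dvd] at hγ ⊢
  exact dvd_trans ⟨(q : ℤ), by push_cast; ring⟩ hγ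

/-- the second degeneracy on matrices: `[[a,b],[c,d]] ↦ [[a, q b],[c / q, d]]` for `q ∣ c`. -/
def lraDegMat (q : ℕ) (γ : SL(2, ℤ)) (c' : ℤ) (hc : γ 1 0 = q * c') : SL(2, ℤ) :=
  ⟨!![γ 0 0, q * γ 0 1; c', γ 1 1], by
    have hdet := γ.det_coe
    rw [Matrix.det_fin_two] at hdet
    rw [Matrix.det_fin_two_of]
    rw [hc] at hdet
    linarith⟩

section degentries
variable (q : ℕ) (γ : SL(2, ℤ)) (c' : ℤ) (hc : γ 1 0 = q * c')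
@[simp] theorem lraDegMat_00 : lraDegMat q γ c' hc 0 0 = γ 0 0 := rfl
@[simp] theorem lraDegMat_01 : lraDegMat q γ c' hc 0 1 = q * γ 0 1 := rfl
@[simp] theorem lraDegMat_10 : lraDegMat q γ c' hc 1 0 = c' := rfl
@[simp] theorem lraDegMat_11 : lraDegMat q γ c' hc 1 1 = γ 1 1 := rfl
end degentries

theorem lraConj_lraCast (hq : q ≠ 0) (γ : SL(2, ℤ)) (c' : ℤ) (hc : γ 1 0 = q * c') :
    lraConj q hq (lraCast γ) = lraCast (lraDegMat q γ c' hc) := by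
  have hq' : (q : ℚ) ≠ 0 := Nat.cast_ne_zero.2 hq
  ext i j
  fin_cases i <;> fin_cases j <;> simp [hc]
  field_simp

theorem lraC_le_lraB (hq : q ≠ 0) : lraC N q ≤ lraB N q hq := by
  rintro g ⟨γ, hγ, rfl⟩
  rw [mem_lraB]
  rw [SetLike.mem_coe, lra_Gamma0_mem_iff_dvd] at hγ
  obtain ⟨c, hc⟩ := hγ
  have hc' : γ 1 0 = q * (N * c) := by rw [hc]; push_cast; ring
  rw [lraConj_lraCast hq γ (N * c) hc', lraCast_mem_lraA, lra_Gamma0_mem_iff_dvd]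
  exact ⟨c, rfl⟩

end

end Fermat.Agent.LR
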