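/-
LR-A (helper2): ping-pong of `lraA N`, `lraB N q` on `ℚ²` with the `q`-adic norm.
Result: `lra_pp : LraPP (lraG N q hq) (lraC N q) (lraXs q)`.
-/
import Mathlib
import Fermat.Agent.Lib.LR.Amalgam.Gamma

set_option autoImplicit false

namespace Fermat.Agent.LR

open Matrix MatrixGroups CongruenceSubgroup

noncomputable section

theorem lra_smul_0 (g : SL(2, ℚ)) (v : Fin 2 → ℚ) : (g • v) 0 = g 0 0 * v 0 + g 0 1 * v 1 := by
  rw [Matrix.SpecialLinearGroup.smul_def]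
  simp [Matrix.smul_eq_mulVec, Matrix.mulVec, dotProduct, Fin.sum_univ_two]

theorem lra_smul_1 (g : SL(2, ℚ)) (v : Fin 2 → ℚ) : (g • v) 1 = g 1 0 * v 0 + g 1 1 * v 1 := by
  rw [Matrix.SpecialLinearGroup.smul_def]
  simp [Matrix.smul_eq_mulVec, Matrix.mulVec, dotProduct, Fin.sum_univ_two]

/-- The two subgroups as a `Bool`-indexed family. -/
def lraG (N q : ℕ) (hq : q ≠ 0) : Bool → Subgroup SL(2, ℚ)
  | false => lraA N
  | true => lraB N q hq

/-- The ping-pong sets: `Xs false = {‖y‖ < ‖x‖}`, `Xs true = {‖x‖ ≤ ‖y‖, y ≠ 0}`. -/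
def lraXs (q : ℕ) [Fact q.Prime] : Bool → Set (Fin 2 → ℚ)
  | false => {v | padicNorm q (v 1) < padicNorm q (v 0)}
  | true => {v | padicNorm q (v 0) ≤ padicNorm q (v 1) ∧ v 1 ≠ 0}

variable {N q : ℕ} [hqp : Fact q.Prime]

omit hqp in
/-- elements of `lraA \ lraC` have lower-left entry prime to `q`. -/
theorem lra_not_dvd_of_notMem_C (hNq : N.Coprime q) {γ : SL(2, ℤ)} (hγ : γ ∈ Gamma0 N)
    (hC : lraCast γ ∉ lraC N q) : ¬ (q : ℤ) ∣ γ 1 0 := by
  intro hdvd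
  apply hC
  rw [lraCast_mem_lraC, lra_Gamma0_mem_iff_dvd]
  rw [lra_Gamma0_mem_iff_dvd] at hγ
  have hcop : IsCoprime (N : ℤ) (q : ℤ) := Nat.isCoprime_iff_coprime.2 hNq
  push_cast
  exact hcop.mul_dvd hγ hdvd

theorem lra_pp_A (hNq : N.Coprime q) {g : SL(2, ℚ)} (hg : g ∈ lraA N) (hgC : g ∉ lraC N q)
    {v : Fin 2 → ℚ} (hv : v ∈ lraXs q false) : g • v ∈ lraXs q true := by
  obtain ⟨γ, hγ, rfl⟩ := hg
  have hc := lra_not_dvd_of_notMem_C hNq hγ hgC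
  have hc1 : padicNorm q ((γ 1 0 : ℤ) : ℚ) = 1 := (padicNorm.int_eq_one_iff _).2 hc
  change padicNorm q (v 1) < padicNorm q (v 0) at hv
  have h1 : padicNorm q (lraCast γ 1 0 * v 0) = padicNorm q (v 0) := by
    rw [padicNorm.mul, lraCast_apply, hc1, one_mul]
  have h2 : padicNorm q (lraCast γ 1 1 * v 1) ≤ padicNorm q (v 1) := by
    rw [padicNorm.mul, lraCast_apply]
    exact mul_le_of_le_one_left (padicNorm.nonneg _) (padicNorm.of_int _)
  have hne : padicNorm q (lraCast γ 1 0 * v 0) ≠ padicNorm q (lraCast γ 1 1 * v 1) := by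
    rw [h1]; exact ne_of_gt (lt_of_le_of_lt h2 hv)
  have hw1 : padicNorm q ((lraCast γ • v) 1) = padicNorm q (v 0) := by
    rw [lra_smul_1, padicNorm.add_eq_max_of_ne hne, h1]
    exact max_eq_left (le_of_lt (lt_of_le_of_lt h2 hv))
  have hw0 : padicNorm q ((lraCast γ • v) 0) ≤ padicNorm q (v 0) := by
    rw [lra_smul_0]
    refine le_trans padicNorm.nonarchimedean (max_le ?_ ?_)
    · rw [padicNorm.mul, lraCast_apply]
      exact mul_le_of_le_one_left (padicNorm.nonneg _) (padicNorm.of_int _)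
    · rw [padicNorm.mul, lraCast_apply]
      exact le_trans (mul_le_of_le_one_left (padicNorm.nonneg _) (padicNorm.of_int _))
        (le_of_lt hv)
  refine ⟨by rw [hw1]; exact hw0, ?_⟩
  intro h0
  rw [h0, padicNorm.zero] at hw1
  have := lt_of_le_of_lt (padicNorm.nonneg (v 1)) hv
  rw [← hw1] at this
  exact lt_irrefl _ this

omit hqp in
/-- entries of an element of `lraB`. -/
theorem lra_B_entries {hq : q ≠ 0} {g : SL(2, ℚ)} (hg : g ∈ lraB N q hq) :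
    ∃ γ : SL(2, ℤ), γ ∈ Gamma0 N ∧ g 0 0 = ((γ 0 0 : ℤ) : ℚ) ∧ g 0 1 = ((γ 0 1 : ℤ) : ℚ) / q ∧
      g 1 0 = (q : ℚ) * ((γ 1 0 : ℤ) : ℚ) ∧ g 1 1 = ((γ 1 1 : ℤ) : ℚ) ∧
      lraConj q hq g = lraCast γ := by
  obtain ⟨γ, hγ, he⟩ := hg
  have hq' : (q : ℚ) ≠ 0 := Nat.cast_ne_zero.2 hq
  have e00 := congrArg (fun h : SL(2, ℚ) => h 0 0) he
  have e01 := congrArg (fun h : SL(2, ℚ) => h 0 1) he
  have e10 := congrArg (fun h : SL(2, ℚ) => h 1 0) he
  have e11 := congrArg (fun h : SL(2, ℚ) => h 1 1) he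
  simp only [lraCast_apply, MulEquiv.coe_toMonoidHom, lraConj_00, lraConj_01, lraConj_10,
    lraConj_11] at e00 e01 e10 e11
  refine ⟨γ, hγ, e00.symm, ?_, ?_, e11.symm, he.symm⟩
  · rw [e01]; field_simp
  · rw [e10]; field_simp

omit hqp in
/-- elements of `lraB \ lraC` have (conjugated) upper-right entry prime to `q`. -/
theorem lra_not_dvd_of_notMem_C_B {hq : q ≠ 0} {g : SL(2, ℚ)} {γ : SL(2, ℤ)} (hγ : γ ∈ Gamma0 N)
    (he : lraConj q hq g = lraCast γ) (hC : g ∉ lraC N q) : ¬ (q : ℤ) ∣ γ 0 1 := by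
  rintro ⟨b', hb'⟩
  apply hC
  have hq' : (q : ℚ) ≠ 0 := Nat.cast_ne_zero.2 hq
  rw [lra_Gamma0_mem_iff_dvd] at hγ
  obtain ⟨c', hc'⟩ := hγ
  have hdet := γ.det_coe
  rw [Matrix.det_fin_two] at hdet
  let γ' : SL(2, ℤ) := ⟨!![γ 0 0, b'; q * γ 1 0, γ 1 1], by
    rw [Matrix.det_fin_two_of]
    rw [hb'] at hdet
    linarith⟩
  have h00 : γ' 0 0 = γ 0 0 := rfl
  have h01 : γ' 0 1 = b' := rfl
  have h10 : γ' 1 0 = q * γ 1 0 := rfl
  have h11 : γ' 1 1 = γ 1 1 := rfl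
  have hg : g = lraCast γ' := by
    have : g = (lraConj q hq).symm (lraCast γ) := by rw [← he]; simp
    rw [this]
    ext i j
    fin_cases i <;> fin_cases j <;> simp [h00, h01, h10, h11, hb']
    field_simp
  rw [hg, lraCast_mem_lraC, lra_Gamma0_mem_iff_dvd, h10, hc']
  exact ⟨c', by push_cast; ring⟩

theorem lra_pp_B {hq : q ≠ 0} {g : SL(2, ℚ)} (hg : g ∈ lraB N q hq) (hgC : g ∉ lraC N q)
    {v : Fin 2 → ℚ} (hv : v ∈ lraXs q true) : g • v ∈ lraXs q false := by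
  obtain ⟨γ, hγ, e00, e01, e10, e11, he⟩ := lra_B_entries hg
  have hb := lra_not_dvd_of_notMem_C_B hγ he hgC
  have hb1 : padicNorm q ((γ 0 1 : ℤ) : ℚ) = 1 := (padicNorm.int_eq_one_iff _).2 hb
  obtain ⟨hv1, hv0⟩ : padicNorm q (v 0) ≤ padicNorm q (v 1) ∧ v 1 ≠ 0 := hv
  have hq1 : (1 : ℚ) < q := by exact_mod_cast hqp.out.one_lt
  have hqpos : (0 : ℚ) < q := lt_trans zero_lt_one hq1
  have hpos : 0 < padicNorm q (v 1) :=
    lt_of_le_of_ne (padicNorm.nonneg _) (Ne.symm (padicNorm.nonzero hv0))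
  have hnq : padicNorm q (q : ℚ) = (q : ℚ)⁻¹ := padicNorm.padicNorm_p_of_prime
  -- first coordinate: norm exactly `q * ‖v 1‖`
  have h1 : padicNorm q (g 0 1 * v 1) = q * padicNorm q (v 1) := by
    rw [e01, padicNorm.mul, padicNorm.div, hb1, hnq]
    field_simp
  have h2 : padicNorm q (g 0 0 * v 0) ≤ padicNorm q (v 1) := by
    rw [e00, padicNorm.mul]
    exact le_trans (mul_le_of_le_one_left (padicNorm.nonneg _) (padicNorm.of_int _)) hv1
  have hlt : padicNorm q (v 1) < q * padicNorm q (v 1) := by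
    have := mul_lt_mul_of_pos_right hq1 hpos
    rwa [one_mul] at this
  have hne : padicNorm q (g 0 0 * v 0) ≠ padicNorm q (g 0 1 * v 1) := by
    rw [h1]; exact ne_of_lt (lt_of_le_of_lt h2 hlt)
  have hw0 : padicNorm q ((g • v) 0) = q * padicNorm q (v 1) := by
    rw [lra_smul_0, padicNorm.add_eq_max_of_ne hne, h1]
    exact max_eq_right (le_of_lt (lt_of_le_of_lt h2 hlt))
  have hw1 : padicNorm q ((g • v) 1) ≤ padicNorm q (v 1) := by
    rw [lra_smul_1]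
    refine le_trans padicNorm.nonarchimedean (max_le ?_ ?_)
    · rw [e10, padicNorm.mul, padicNorm.mul, hnq]
      have h3 : padicNorm q ((γ 1 0 : ℤ) : ℚ) * padicNorm q (v 0) ≤ padicNorm q (v 1) :=
        le_trans (mul_le_of_le_one_left (padicNorm.nonneg _) (padicNorm.of_int _)) hv1
      have h4 : (q : ℚ)⁻¹ ≤ 1 := inv_le_one_of_one_le₀ (le_of_lt hq1)
      calc (q : ℚ)⁻¹ * padicNorm q ((γ 1 0 : ℤ) : ℚ) * padicNorm q (v 0)
          = (q : ℚ)⁻¹ * (padicNorm q ((γ 1 0 : ℤ) : ℚ) * padicNorm q (v 0)) := by ring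
        _ ≤ 1 * (padicNorm q ((γ 1 0 : ℤ) : ℚ) * padicNorm q (v 0)) :=
            mul_le_mul_of_nonneg_right h4
              (mul_nonneg (padicNorm.nonneg _) (padicNorm.nonneg _))
        _ ≤ padicNorm q (v 1) := by rw [one_mul]; exact h3
    · rw [e11, padicNorm.mul]
      exact mul_le_of_le_one_left (padicNorm.nonneg _) (padicNorm.of_int _)
  show padicNorm q ((g • v) 1) < padicNorm q ((g • v) 0)
  rw [hw0]
  exact lt_of_le_of_lt hw1 hlt

omit hqp in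
theorem lra_idx_of_pair {K : Type*} [Group K] {G C : Subgroup K} {a₁ a₂ : K} (h₁G : a₁ ∈ G)
    (h₂G : a₂ ∈ G) (h₁ : a₁ ∉ C) (h₂ : a₂ ∉ C) (h₁₂ : a₁ * a₂⁻¹ ∉ C) :
    ∀ g ∈ G, g ∉ C → ∃ a ∈ G, a ∉ C ∧ a * g ∉ C := by
  intro g _ _
  by_cases h : a₁ * g ∈ C
  · refine ⟨a₂, h₂G, h₂, fun h' => h₁₂ ?_⟩
    have := C.mul_mem h (C.inv_mem h')
    simpa [mul_assoc] using this
  · exact ⟨a₁, h₁G, h₁, h⟩

/-- An explicit `SL(2,ℤ)` matrix. -/
def lraMk (a b c d : ℤ) (h : a * d - b * c = 1) : SL(2, ℤ) :=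
  ⟨!![a, b; c, d], by rw [Matrix.det_fin_two_of]; exact h⟩

section mkentries
variable (a b c d : ℤ) (h : a * d - b * c = 1)
@[simp] theorem lraMk_00 : lraMk a b c d h 0 0 = a := rfl
@[simp] theorem lraMk_01 : lraMk a b c d h 0 1 = b := rfl
@[simp] theorem lraMk_10 : lraMk a b c d h 1 0 = c := rfl
@[simp] theorem lraMk_11 : lraMk a b c d h 1 1 = d := rfl
end mkentries

omit hqp in
theorem lraMk_inv (a b c d : ℤ) (h : a * d - b * c = 1) :
    (lraMk a b c d h)⁻¹ = lraMk d (-b) (-c) a (by linarith) := by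
  rw [inv_eq_iff_eq_inv, eq_inv_iff_mul_eq_one]
  ext i j
  fin_cases i <;> fin_cases j <;>
    simp [Matrix.mul_apply, Fin.sum_univ_two] <;> linarith

include hqp in
theorem lra_q_not_dvd_pred : ¬ (q : ℤ) ∣ (q : ℤ) - 1 := by
  intro h
  have h1 : (q : ℤ) ∣ 1 := by
    have := dvd_sub (dvd_refl (q : ℤ)) h
    simpa using this
  have := Int.natAbs_dvd_natAbs.2 h1
  simp at this
  exact hqp.out.one_lt.ne' this

theorem lra_idx_A (hN : N ≠ 0) (hNq : N.Coprime q) :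
    ∀ g ∈ lraA N, g ∉ lraC N q → ∃ a ∈ lraA N, a ∉ lraC N q ∧ a * g ∉ lraC N q := by
  have hcop : IsCoprime (N : ℤ) (q : ℤ) := Nat.isCoprime_iff_coprime.2 hNq
  obtain ⟨u, x, hux⟩ := hcop
  -- `u * N + x * q = 1`
  have hnot : ¬ ((N * q : ℕ) : ℤ) ∣ (N : ℤ) := by
    rintro ⟨t, ht⟩
    have hN' : (N : ℤ) ≠ 0 := by exact_mod_cast hN
    have : (N : ℤ) * 1 = N * (q * t) := by rw [mul_one]; push_cast at ht; linarith
    have h1 : (1 : ℤ) = q * t := mul_left_cancel₀ hN' this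
    have : (q : ℤ) ∣ 1 := ⟨t, h1⟩
    have := Int.natAbs_dvd_natAbs.2 this
    simp at this
    exact hqp.out.one_lt.ne' this
  let γ₁ : SL(2, ℤ) := lraMk 1 0 N 1 (by ring)
  let γ₂ : SL(2, ℤ) := lraMk x (-u) N q (by linarith)
  refine lra_idx_of_pair (a₁ := lraCast γ₁) (a₂ := lraCast γ₂) ?_ ?_ ?_ ?_ ?_
  · rw [lraCast_mem_lraA, lra_Gamma0_mem_iff_dvd]; exact dvd_refl _
  · rw [lraCast_mem_lraA, lra_Gamma0_mem_iff_dvd]; exact dvd_refl _
  · rw [lraCast_mem_lraC, lra_Gamma0_mem_iff_dvd]; exact hnot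
  · rw [lraCast_mem_lraC, lra_Gamma0_mem_iff_dvd]; exact hnot
  · rw [← map_inv, ← map_mul, lraCast_mem_lraC, lra_Gamma0_mem_iff_dvd, lraMk_inv]
    have : (γ₁ * lraMk (q : ℤ) (- -u) (-(N : ℤ)) x (by linarith)) 1 0 = (N : ℤ) * ((q : ℤ) - 1) := by
      simp [γ₁, Matrix.mul_apply, Fin.sum_univ_two]
      ring
    rw [this]
    rintro ⟨t, ht⟩
    have hN' : (N : ℤ) ≠ 0 := by exact_mod_cast hN
    have h2 : (N : ℤ) * ((q : ℤ) - 1) = N * (q * t) := by push_cast at ht; linarith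
    have h1 : (q : ℤ) - 1 = q * t := mul_left_cancel₀ hN' h2
    exact lra_q_not_dvd_pred ⟨t, h1⟩

omit hqp in
/-- membership of `δ⁻¹ γ δ` in `lraC`. -/
theorem lraConj_symm_mem_lraC {hq : q ≠ 0} {β : SL(2, ℤ)}
    (h : (lraConj q hq).symm (lraCast β) ∈ lraC N q) : (q : ℤ) ∣ β 0 1 := by
  obtain ⟨γ, _, he⟩ := h
  have hq' : (q : ℚ) ≠ 0 := Nat.cast_ne_zero.2 hq
  have e01 := congrArg (fun h : SL(2, ℚ) => h 0 1) he
  simp only [lraCast_apply, lraConj_symm_01] at e01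
  refine ⟨γ 0 1, ?_⟩
  have : ((β 0 1 : ℤ) : ℚ) = ((q * γ 0 1 : ℤ) : ℚ) := by
    push_cast
    rw [e01]
    field_simp
  exact_mod_cast this

omit hqp in
theorem lraConj_symm_mem_lraB {hq : q ≠ 0} {β : SL(2, ℤ)} (hβ : β ∈ Gamma0 N) :
    (lraConj q hq).symm (lraCast β) ∈ lraB N q hq := by
  rw [mem_lraB, MulEquiv.apply_symm_apply, lraCast_mem_lraA]
  exact hβ

theorem lra_idx_B (hq : q ≠ 0) (hNq : N.Coprime q) :
    ∀ g ∈ lraB N q hq, g ∉ lraC N q → ∃ a ∈ lraB N q hq, a ∉ lraC N q ∧ a * g ∉ lraC N q := by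
  have hcop : IsCoprime (N : ℤ) (q : ℤ) := Nat.isCoprime_iff_coprime.2 hNq
  obtain ⟨u, x, hux⟩ := hcop
  -- `u * N + x * q = 1`
  have h1not : ¬ (q : ℤ) ∣ 1 := by
    intro h
    have := Int.natAbs_dvd_natAbs.2 h
    simp at this
    exact hqp.out.one_lt.ne' this
  let β₁ : SL(2, ℤ) := lraMk 1 1 0 1 (by ring)
  let β₂ : SL(2, ℤ) := lraMk q 1 (N * (-u)) x (by linarith)
  have hβ₁ : β₁ ∈ Gamma0 N := by rw [lra_Gamma0_mem_iff_dvd]; exact dvd_zero _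
  have hβ₂ : β₂ ∈ Gamma0 N := by rw [lra_Gamma0_mem_iff_dvd]; exact ⟨-u, rfl⟩
  refine lra_idx_of_pair (a₁ := (lraConj q hq).symm (lraCast β₁))
    (a₂ := (lraConj q hq).symm (lraCast β₂)) (lraConj_symm_mem_lraB hβ₁)
    (lraConj_symm_mem_lraB hβ₂) ?_ ?_ ?_
  · intro h; exact h1not (lraConj_symm_mem_lraC h)
  · intro h; exact h1not (lraConj_symm_mem_lraC h)
  · rw [← map_inv, ← map_mul, ← map_inv, ← map_mul, lraMk_inv]
    intro h
    have h' := lraConj_symm_mem_lraC h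
    have : (β₁ * lraMk x (-1) (-((N : ℤ) * (-u))) (q : ℤ) (by linarith)) 0 1 = (q : ℤ) - 1 := by
      simp [β₁, Matrix.mul_apply, Fin.sum_univ_two]
      ring
    rw [this] at h'
    exact lra_q_not_dvd_pred h'

/-- **Ping-pong data** for `Γ₀(N)` and `δ⁻¹ Γ₀(N) δ` over `Γ₀(N q)`. -/
theorem lra_pp (hN : N ≠ 0) (hNq : N.Coprime q) :
    LraPP (lraG N q hqp.out.ne_zero) (lraC N q) (lraXs q) where
  le := by
    intro i
    cases i
    · exact lraC_le_lraA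
    · exact lraC_le_lraB _
  pp := by
    intro i g hg hgC v hv
    cases i
    · exact lra_pp_A hNq hg hgC hv
    · exact lra_pp_B hg hgC hv
  disj := by
    rw [Set.disjoint_left]
    intro v (h1 : padicNorm q (v 1) < padicNorm q (v 0)) h2
    exact absurd h2.1 (not_le.2 h1)
  ne := by
    intro i
    cases i
    · refine ⟨![1, 0], ?_⟩
      show padicNorm q ((![1, 0] : Fin 2 → ℚ) 1) < padicNorm q ((![1, 0] : Fin 2 → ℚ) 0)
      simp
    · refine ⟨![0, 1], ?_, ?_⟩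
      · show padicNorm q ((![0, 1] : Fin 2 → ℚ) 0) ≤ padicNorm q ((![0, 1] : Fin 2 → ℚ) 1)
        simp
      · simp
  idx := by
    intro i
    cases i
    · exact lra_idx_A hN hNq
    · exact lra_idx_B _ hNq

end

end Fermat.Agent.LR
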