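/-
LR-A (helper2): explicit description of `lraA N ⊔ lraB N q`:
it is `lraDelta N q` = `Γ₀(N)[1/q]` = matrices of `SL(2,ℚ)` of the form `M / q^k`, `M` integral
with `N ∣ M 1 0`.
-/
import Mathlib
import Fermat.Agent.Lib.LR.Amalgam.GammaPP

set_option autoImplicit false

namespace Fermat.Agent.LR

open Matrix MatrixGroups CongruenceSubgroup

noncomputable section

/-- `g = M / q^k` with `M` integral, `N ∣ M 1 0`. -/
def LraLevel (N q : ℕ) (k : ℕ) (g : SL(2, ℚ)) (M : Matrix (Fin 2) (Fin 2) ℤ) : Prop :=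
  (∀ i j, g i j * (q : ℚ) ^ k = (M i j : ℚ)) ∧ (N : ℤ) ∣ M 1 0

theorem LraLevel.mul {N q k l : ℕ} {g h : SL(2, ℚ)} {M P : Matrix (Fin 2) (Fin 2) ℤ}
    (hg : LraLevel N q k g M) (hh : LraLevel N q l h P) :
    LraLevel N q (k + l) (g * h) (M * P) := by
  refine ⟨?_, ?_⟩
  · intro i j
    have e1 : (g * h) i j = g i 0 * h 0 j + g i 1 * h 1 j := by
      simp [Matrix.mul_apply, Fin.sum_univ_two]
    rw [e1, Matrix.mul_apply, Fin.sum_univ_two]
    push_cast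
    rw [← hg.1 i 0, ← hg.1 i 1, ← hh.1 0 j, ← hh.1 1 j, pow_add]
    ring
  · rw [Matrix.mul_apply, Fin.sum_univ_two]
    obtain ⟨c, hc⟩ := hg.2
    obtain ⟨c', hc'⟩ := hh.2
    exact ⟨c * P 0 0 + M 1 1 * c', by rw [hc, hc']; ring⟩

theorem LraLevel.inv {N q k : ℕ} {g : SL(2, ℚ)} {M : Matrix (Fin 2) (Fin 2) ℤ}
    (hg : LraLevel N q k g M) :
    LraLevel N q k g⁻¹ !![M 1 1, -M 0 1; -M 1 0, M 0 0] := by
  refine ⟨?_, ?_⟩
  · intro i j
    fin_cases i <;> fin_cases j <;> simp [Matrix.adjugate_fin_two]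
    · exact hg.1 1 1
    · rw [← hg.1 0 1]
    · rw [← hg.1 1 0]
    · exact hg.1 0 0
  · simpa using hg.2

/-- `Γ₀(N)[1/q]` inside `SL(2,ℚ)`. -/
def lraDelta (N q : ℕ) : Subgroup SL(2, ℚ) where
  carrier := {g | ∃ (k : ℕ) (M : Matrix (Fin 2) (Fin 2) ℤ), LraLevel N q k g M}
  one_mem' := ⟨0, 1, by
    refine ⟨?_, by simp⟩
    intro i j
    fin_cases i <;> fin_cases j <;> simp⟩
  mul_mem' := by
    rintro g h ⟨k, M, hg⟩ ⟨l, P, hh⟩
    exact ⟨k + l, M * P, hg.mul hh⟩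
  inv_mem' := by
    rintro g ⟨k, M, hg⟩
    exact ⟨k, _, hg.inv⟩

theorem mem_lraDelta {N q : ℕ} {g : SL(2, ℚ)} :
    g ∈ lraDelta N q ↔ ∃ (k : ℕ) (M : Matrix (Fin 2) (Fin 2) ℤ), LraLevel N q k g M := Iff.rfl

theorem lraLevel_lraCast {N q : ℕ} {γ : SL(2, ℤ)} (hγ : γ ∈ Gamma0 N) :
    LraLevel N q 0 (lraCast γ) γ.1 := by
  refine ⟨fun i j => by simp, lra_Gamma0_mem_iff_dvd.1 hγ⟩

theorem lraA_le_lraDelta {N q : ℕ} : lraA N ≤ lraDelta N q := by
  rintro g ⟨γ, hγ, rfl⟩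
  exact ⟨0, _, lraLevel_lraCast hγ⟩

theorem lraLevel_conj_symm {N q : ℕ} (hq : q ≠ 0) {β : SL(2, ℤ)} (hβ : β ∈ Gamma0 N) :
    LraLevel N q 1 ((lraConj q hq).symm (lraCast β))
      !![q * β 0 0, β 0 1; q * q * β 1 0, q * β 1 1] := by
  have hq' : (q : ℚ) ≠ 0 := Nat.cast_ne_zero.2 hq
  refine ⟨?_, ?_⟩
  · intro i j
    fin_cases i <;> fin_cases j <;> simp <;> field_simp
  · obtain ⟨c, hc⟩ := lra_Gamma0_mem_iff_dvd.1 hβ
    exact ⟨q * q * c, by simp [hc]; ring⟩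

theorem lraB_le_lraDelta {N q : ℕ} (hq : q ≠ 0) : lraB N q hq ≤ lraDelta N q := by
  intro g hg
  obtain ⟨γ, hγ, -, -, -, -, he⟩ := lra_B_entries hg
  have : g = (lraConj q hq).symm (lraCast γ) := by rw [← he]; simp
  rw [this]
  exact ⟨1, _, lraLevel_conj_symm hq hγ⟩

theorem lra_sup_le_lraDelta {N q : ℕ} (hq : q ≠ 0) : lraA N ⊔ lraB N q hq ≤ lraDelta N q :=
  sup_le lraA_le_lraDelta (lraB_le_lraDelta hq)

section Induction

variable {N q : ℕ} [hqp : Fact q.Prime]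

omit hqp in
theorem lra_mul2 (A B : Matrix (Fin 2) (Fin 2) ℤ) (i j : Fin 2) :
    (A * B) i j = A i 0 * B 0 j + A i 1 * B 1 j := by
  rw [Matrix.mul_apply, Fin.sum_univ_two]

theorem lra_prime_int : Prime (q : ℤ) := Nat.prime_iff_prime_int.1 hqp.out

theorem lra_coprime_of_not_dvd {a : ℤ} (h : ¬ (q : ℤ) ∣ a) : IsCoprime (q : ℤ) a :=
  (lra_prime_int (q := q)).irreducible.coprime_iff_not_dvd.2 h

/-- rank one mod `q`: the second row is a multiple of the first. -/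
theorem lra_row_rel (x₁ y₁ x₂ y₂ : ℤ) (hdet : (q : ℤ) ∣ x₁ * y₂ - y₁ * x₂)
    (hprim : ¬ ((q : ℤ) ∣ x₁ ∧ (q : ℤ) ∣ y₁)) :
    ∃ μ : ℤ, (q : ℤ) ∣ x₂ - μ * x₁ ∧ (q : ℤ) ∣ y₂ - μ * y₁ := by
  have hp := lra_prime_int (q := q)
  by_cases h : (q : ℤ) ∣ x₁
  · have hy : ¬ (q : ℤ) ∣ y₁ := fun hy => hprim ⟨h, hy⟩
    obtain ⟨a, b, hab⟩ := lra_coprime_of_not_dvd hy
    refine ⟨y₂ * b, ?_, ?_⟩
    · have hx2 : (q : ℤ) ∣ x₂ := by
        have h1 : (q : ℤ) ∣ y₁ * x₂ := by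
          have := dvd_sub (dvd_mul_of_dvd_left h y₂) hdet
          simpa using this
        exact (hp.dvd_or_dvd h1).resolve_left hy
      exact dvd_sub hx2 (dvd_mul_of_dvd_right h _)
    · exact ⟨a * y₂, by linear_combination (-y₂) * hab⟩
  · obtain ⟨a, b, hab⟩ := lra_coprime_of_not_dvd h
    refine ⟨x₂ * b, ⟨a * x₂, by linear_combination (-x₂) * hab⟩, ?_⟩
    have h1 : (q : ℤ) ∣ x₁ * (y₂ - x₂ * b * y₁) := by
      obtain ⟨t, ht⟩ := hdet
      exact ⟨t + x₂ * y₁ * a, by linear_combination ht - x₂ * y₁ * hab⟩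
    exact (hp.dvd_or_dvd h1).resolve_left h

/-- Step 1: make the second row divisible by `q` with an element of `Γ₀(N)`. -/
theorem lra_step1 (hNq : N.Coprime q) (M : Matrix (Fin 2) (Fin 2) ℤ)
    (hdet : (q : ℤ) ∣ M 0 0 * M 1 1 - M 0 1 * M 1 0) (hnot : ¬ ∀ i j, (q : ℤ) ∣ M i j) :
    ∃ γ : SL(2, ℤ), γ ∈ Gamma0 N ∧ (q : ℤ) ∣ (γ.1 * M) 1 0 ∧ (q : ℤ) ∣ (γ.1 * M) 1 1 ∧
      ¬ ((q : ℤ) ∣ (γ.1 * M) 0 0 ∧ (q : ℤ) ∣ (γ.1 * M) 0 1) := by
  have hp := lra_prime_int (q := q)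
  have hcop : IsCoprime (N : ℤ) (q : ℤ) := Nat.isCoprime_iff_coprime.2 hNq
  obtain ⟨u, x, hux⟩ := hcop
  by_cases h1 : (q : ℤ) ∣ M 0 0 ∧ (q : ℤ) ∣ M 0 1
  · -- first row divisible: swap with `[[x, -u],[N, q]]`
    have hu : ¬ (q : ℤ) ∣ u := by
      intro hu
      have : (q : ℤ) ∣ 1 := by
        rw [← hux]
        exact dvd_add (dvd_mul_of_dvd_left hu _) (dvd_mul_left _ _)
      exact hp.not_dvd_one this
    refine ⟨lraMk x (-u) N q (by linarith), ?_, ?_, ?_, ?_⟩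
    · rw [lra_Gamma0_mem_iff_dvd]; exact dvd_refl _
    · rw [lra_mul2]
      exact dvd_add (dvd_mul_of_dvd_right h1.1 _) (dvd_mul_right _ _)
    · rw [lra_mul2]
      exact dvd_add (dvd_mul_of_dvd_right h1.2 _) (dvd_mul_right _ _)
    · rintro ⟨h00, h01⟩
      apply hnot
      rw [lra_mul2] at h00 h01
      have e00 : (lraMk x (-u) N q (by linarith)).1 0 0 = x := rfl
      have e01 : (lraMk x (-u) N q (by linarith)).1 0 1 = -u := rfl
      rw [e00, e01] at h00 h01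
      have h10 : (q : ℤ) ∣ M 1 0 := by
        have : (q : ℤ) ∣ u * M 1 0 := by
          have := dvd_sub (dvd_mul_of_dvd_right h1.1 x) h00
          simpa using this
        exact (hp.dvd_or_dvd this).resolve_left hu
      have h11 : (q : ℤ) ∣ M 1 1 := by
        have : (q : ℤ) ∣ u * M 1 1 := by
          have := dvd_sub (dvd_mul_of_dvd_right h1.2 x) h01
          simpa using this
        exact (hp.dvd_or_dvd this).resolve_left hu
      intro i j
      fin_cases i <;> fin_cases j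
      · exact h1.1
      · exact h1.2
      · exact h10
      · exact h11
  · obtain ⟨μ, hμ0, hμ1⟩ := lra_row_rel (M 0 0) (M 0 1) (M 1 0) (M 1 1) hdet h1
    refine ⟨lraMk 1 0 (N * (-μ * u)) 1 (by ring), ?_, ?_, ?_, ?_⟩
    · rw [lra_Gamma0_mem_iff_dvd]; exact dvd_mul_right _ _
    · rw [lra_mul2]
      obtain ⟨t, ht⟩ := hμ0
      have e10 : (lraMk 1 0 ((N : ℤ) * (-μ * u)) 1 (by ring)).1 1 0 = N * (-μ * u) := rfl
      have e11 : (lraMk 1 0 ((N : ℤ) * (-μ * u)) 1 (by ring)).1 1 1 = 1 := rfl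
      rw [e10, e11]
      exact ⟨t + μ * M 0 0 * x, by linear_combination ht - μ * M 0 0 * hux⟩
    · rw [lra_mul2]
      obtain ⟨t, ht⟩ := hμ1
      have e10 : (lraMk 1 0 ((N : ℤ) * (-μ * u)) 1 (by ring)).1 1 0 = N * (-μ * u) := rfl
      have e11 : (lraMk 1 0 ((N : ℤ) * (-μ * u)) 1 (by ring)).1 1 1 = 1 := rfl
      rw [e10, e11]
      exact ⟨t + μ * M 0 1 * x, by linear_combination ht - μ * M 0 1 * hux⟩
    · rw [lra_mul2, lra_mul2]
      have e00 : (lraMk 1 0 ((N : ℤ) * (-μ * u)) 1 (by ring)).1 0 0 = 1 := rfl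
      have e01 : (lraMk 1 0 ((N : ℤ) * (-μ * u)) 1 (by ring)).1 0 1 = 0 := rfl
      rw [e00, e01]
      simpa using h1

/-- Step 2: the first row of `δ⁻¹ β δ · g₁` becomes divisible by `q`. -/
theorem lra_step2 (hNq : N.Coprime q) (x₁ y₁ m₀ m₁ : ℤ)
    (hdet : (q : ℤ) ∣ x₁ * m₁ - y₁ * m₀) (hprim : ¬ ((q : ℤ) ∣ x₁ ∧ (q : ℤ) ∣ y₁)) :
    ∃ β : SL(2, ℤ), β ∈ Gamma0 N ∧ (q : ℤ) ∣ β 0 0 * x₁ + β 0 1 * m₀ ∧
      (q : ℤ) ∣ β 0 0 * y₁ + β 0 1 * m₁ := by
  have hcop : IsCoprime (N : ℤ) (q : ℤ) := Nat.isCoprime_iff_coprime.2 hNq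
  obtain ⟨u, x, hux⟩ := hcop
  obtain ⟨μ, hμ0, hμ1⟩ := lra_row_rel x₁ y₁ m₀ m₁ hdet hprim
  refine ⟨lraMk (x * q - μ * u * N) 1 (N * (-u * (1 + μ))) 1 (by linear_combination hux), ?_, ?_, ?_⟩
  · rw [lra_Gamma0_mem_iff_dvd]; exact dvd_mul_right _ _
  · obtain ⟨t, ht⟩ := hμ0
    simp only [lraMk_00, lraMk_01]
    exact ⟨t + x₁ * x * (1 + μ), by linear_combination ht - μ * x₁ * hux⟩
  · obtain ⟨t, ht⟩ := hμ1
    simp only [lraMk_00, lraMk_01]
    exact ⟨t + y₁ * x * (1 + μ), by linear_combination ht - μ * y₁ * hux⟩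

omit hqp in
theorem lra_aux_row0 (q Q X Y b00 b01 A m n : ℚ) (hq : q ≠ 0) (hX : X * (Q * q) = A)
    (hY : Y * (Q * q) = q * m) (hn : q * n = b00 * A + b01 * m) :
    (b00 * X + q⁻¹ * b01 * Y) * Q = n := by
  have hY' : Y * Q = m := by
    have h2 : (Y * Q - m) * q = 0 := by linear_combination hY
    rcases mul_eq_zero.1 h2 with h | h
    · linarith
    · exact absurd h hq
  have h3 : ((b00 * X + q⁻¹ * b01 * Y) * Q - n) * q = 0 := by
    field_simp
    linear_combination b00 * hX + b01 * hY' - hn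
  rcases mul_eq_zero.1 h3 with h | h
  · linarith
  · exact absurd h hq

omit hqp in
theorem lra_aux_row1 (q Q X Y b10 b11 A m : ℚ) (hq : q ≠ 0) (hX : X * (Q * q) = A)
    (hY : Y * (Q * q) = q * m) :
    (q * b10 * X + b11 * Y) * Q = b10 * A + b11 * m := by
  have hY' : Y * Q = m := by
    have h2 : (Y * Q - m) * q = 0 := by linear_combination hY
    rcases mul_eq_zero.1 h2 with h | h
    · linarith
    · exact absurd h hq
  linear_combination b10 * hX + b11 * hY'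

omit hqp in
theorem lra_smul2 (g h : SL(2, ℚ)) (i j : Fin 2) :
    (g * h) i j = g i 0 * h 0 j + g i 1 * h 1 j := by
  simp [Matrix.mul_apply, Fin.sum_univ_two]

theorem lra_level_mem (hNq : N.Coprime q) :
    ∀ (k : ℕ) (g : SL(2, ℚ)) (M : Matrix (Fin 2) (Fin 2) ℤ), LraLevel N q k g M →
      g ∈ lraA N ⊔ lraB N q hqp.out.ne_zero := by
  have hq0 : (q : ℚ) ≠ 0 := Nat.cast_ne_zero.2 hqp.out.ne_zero
  have hqz : (q : ℤ) ≠ 0 := Nat.cast_ne_zero.2 hqp.out.ne_zero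
  have hcop : IsCoprime (N : ℤ) (q : ℤ) := Nat.isCoprime_iff_coprime.2 hNq
  intro k
  induction k with
  | zero =>
    intro g M hg
    have hdetg := g.det_coe
    rw [Matrix.det_fin_two] at hdetg
    have e : ∀ i j, g i j = (M i j : ℚ) := fun i j => by simpa using hg.1 i j
    have hdetM : M 0 0 * M 1 1 - M 0 1 * M 1 0 = 1 := by
      rw [e 0 0, e 0 1, e 1 0, e 1 1] at hdetg
      exact_mod_cast hdetg
    refine (le_sup_left : lraA N ≤ _) ⟨lraMk _ _ _ _ hdetM, ?_, ?_⟩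
    · rw [SetLike.mem_coe, lra_Gamma0_mem_iff_dvd]; exact hg.2
    · ext i j
      fin_cases i <;> fin_cases j <;> simp [e]
  | succ k ih =>
    intro g M hg
    have hdetg := g.det_coe
    rw [Matrix.det_fin_two] at hdetg
    have hdetM : M 0 0 * M 1 1 - M 0 1 * M 1 0 = (q : ℤ) ^ (2 * (k + 1)) := by
      have h : ((M 0 0 * M 1 1 - M 0 1 * M 1 0 : ℤ) : ℚ) = (((q : ℤ) ^ (2 * (k + 1)) : ℤ) : ℚ) := by
        push_cast
        rw [← hg.1 0 0, ← hg.1 0 1, ← hg.1 1 0, ← hg.1 1 1, pow_mul, pow_two]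
        linear_combination ((q : ℚ) ^ (k + 1) * (q : ℚ) ^ (k + 1)) * hdetg
      exact_mod_cast h
    by_cases hall : ∀ i j, (q : ℤ) ∣ M i j
    · choose M' hM' using hall
      apply ih g (Matrix.of M')
      refine ⟨?_, ?_⟩
      · intro i j
        have h1 := hg.1 i j
        rw [hM' i j, pow_succ] at h1
        push_cast at h1
        have h2 : (g i j * (q : ℚ) ^ k - M' i j) * q = 0 := by linear_combination h1
        rcases mul_eq_zero.1 h2 with h | h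
        · simp only [Matrix.of_apply]; linarith
        · exact absurd h hq0
      · have h1 := hg.2
        rw [hM' 1 0] at h1
        simp only [Matrix.of_apply]
        exact hcop.dvd_of_dvd_mul_left h1
    · have hdvd : (q : ℤ) ∣ M 0 0 * M 1 1 - M 0 1 * M 1 0 := by
        rw [hdetM]; exact dvd_pow_self _ (by omega)
      obtain ⟨γ, hγ, h10, h11, hprim⟩ := lra_step1 hNq M hdvd hall
      have hg1 : LraLevel N q (k + 1) (lraCast γ * g) (γ.1 * M) := by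
        have := (lraLevel_lraCast (q := q) hγ).mul hg
        rwa [zero_add] at this
      obtain ⟨m0, hm0⟩ := h10
      obtain ⟨m1, hm1⟩ := h11
      have hdetM1 : (γ.1 * M) 0 0 * (γ.1 * M) 1 1 - (γ.1 * M) 0 1 * (γ.1 * M) 1 0
          = (q : ℤ) ^ (2 * (k + 1)) := by
        rw [← Matrix.det_fin_two, Matrix.det_mul, γ.det_coe, one_mul, Matrix.det_fin_two, hdetM]
      have hdet2 : (q : ℤ) ∣ (γ.1 * M) 0 0 * m1 - (γ.1 * M) 0 1 * m0 := by
        refine ⟨(q : ℤ) ^ (2 * k), ?_⟩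
        rw [hm0, hm1] at hdetM1
        have h3 : (q : ℤ) * ((γ.1 * M) 0 0 * m1 - (γ.1 * M) 0 1 * m0)
            = (q : ℤ) * ((q : ℤ) * (q : ℤ) ^ (2 * k)) := by
          have e2 : (q : ℤ) ^ (2 * (k + 1)) = (q : ℤ) * ((q : ℤ) * (q : ℤ) ^ (2 * k)) := by
            rw [mul_add, mul_one, pow_add]; ring
          rw [← e2, ← hdetM1]; ring
        exact mul_left_cancel₀ hqz h3
      obtain ⟨β, hβ, ⟨n0, hn0⟩, ⟨n1, hn1⟩⟩ :=
        lra_step2 hNq ((γ.1 * M) 0 0) ((γ.1 * M) 0 1) m0 m1 hdet2 hprim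
      have hN10 : (N : ℤ) ∣ m0 := by
        have h1 : (N : ℤ) ∣ (γ.1 * M) 1 0 := hg1.2
        rw [hm0] at h1
        exact hcop.dvd_of_dvd_mul_left h1
      let b : SL(2, ℚ) := (lraConj q hqp.out.ne_zero).symm (lraCast β)
      let g1 : SL(2, ℚ) := lraCast γ * g
      have hg2 : LraLevel N q k (b * g1)
          !![n0, n1; β 1 0 * (γ.1 * M) 0 0 + β 1 1 * m0, β 1 0 * (γ.1 * M) 0 1 + β 1 1 * m1] := by
        have hX0 := hg1.1 0 0
        have hX1 := hg1.1 0 1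
        have hY0 := hg1.1 1 0
        have hY1 := hg1.1 1 1
        rw [pow_succ] at hX0 hX1 hY0 hY1
        rw [hm0] at hY0
        rw [hm1] at hY1
        push_cast at hY0 hY1
        have hn0' : (q : ℚ) * (n0 : ℚ) = (β 0 0 : ℚ) * (((γ.1 * M) 0 0 : ℤ) : ℚ) + (β 0 1 : ℚ) * m0 := by
          exact_mod_cast hn0.symm
        have hn1' : (q : ℚ) * (n1 : ℚ) = (β 0 0 : ℚ) * (((γ.1 * M) 0 1 : ℤ) : ℚ) + (β 0 1 : ℚ) * m1 := by
          exact_mod_cast hn1.symm
        refine ⟨?_, ?_⟩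
        · intro i j
          rw [lra_smul2]
          fin_cases i <;> fin_cases j
          · simp only [b, Fin.zero_eta, Fin.isValue, lraConj_symm_00, lraConj_symm_01,
              lraCast_apply, Matrix.of_apply, Matrix.cons_val', Matrix.cons_val_zero,
              Matrix.cons_val_fin_one]
            have := lra_aux_row0 q ((q : ℚ) ^ k) (g1 0 0) (g1 1 0) (β 0 0) (β 0 1) _ m0 n0 hq0
              hX0 hY0 hn0'
            rw [← this]
          · simp only [b, Fin.zero_eta, Fin.mk_one, Fin.isValue, lraConj_symm_00, lraConj_symm_01,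
              lraCast_apply, Matrix.of_apply, Matrix.cons_val', Matrix.cons_val_zero,
              Matrix.cons_val_one, Matrix.cons_val_fin_one]
            have := lra_aux_row0 q ((q : ℚ) ^ k) (g1 0 1) (g1 1 1) (β 0 0) (β 0 1) _ m1 n1 hq0
              hX1 hY1 hn1'
            rw [← this]
          · simp only [b, Fin.zero_eta, Fin.mk_one, Fin.isValue, lraConj_symm_10, lraConj_symm_11,
              lraCast_apply, Matrix.of_apply, Matrix.cons_val', Matrix.cons_val_zero,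
              Matrix.cons_val_one, Matrix.cons_val_fin_one]
            have := lra_aux_row1 q ((q : ℚ) ^ k) (g1 0 0) (g1 1 0) (β 1 0) (β 1 1) _ m0 hq0
              hX0 hY0
            push_cast
            rw [← this]
          · simp only [b, Fin.mk_one, Fin.isValue, lraConj_symm_10, lraConj_symm_11,
              lraCast_apply, Matrix.of_apply, Matrix.cons_val', Matrix.cons_val_zero,
              Matrix.cons_val_one, Matrix.cons_val_fin_one]
            have := lra_aux_row1 q ((q : ℚ) ^ k) (g1 0 1) (g1 1 1) (β 1 0) (β 1 1) _ m1 hq0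
              hX1 hY1
            push_cast
            rw [← this]
        · simp only [Matrix.of_apply, Matrix.cons_val', Matrix.cons_val_zero, Matrix.cons_val_one,
            Matrix.cons_val_fin_one]
          exact dvd_add (dvd_mul_of_dvd_left (lra_Gamma0_mem_iff_dvd.1 hβ) _)
            (dvd_mul_of_dvd_right hN10 _)
      have hmem := ih (b * g1) _ hg2
      have hb : b ∈ lraB N q hqp.out.ne_zero := lraConj_symm_mem_lraB hβ
      have ha : lraCast γ ∈ lraA N := lraCast_mem_lraA.2 hγ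
      have hgeq : g = (lraCast γ)⁻¹ * (b⁻¹ * (b * g1)) := by
        simp [g1, mul_assoc]
      rw [hgeq]
      exact mul_mem (inv_mem ((le_sup_left : lraA N ≤ _) ha))
        (mul_mem (inv_mem ((le_sup_right : lraB N q _ ≤ _) hb)) hmem)

/-- **Generation**: `Γ₀(N)[1/q]` is generated by `Γ₀(N)` and `δ⁻¹ Γ₀(N) δ`. -/
theorem lra_sup_eq_lraDelta (hNq : N.Coprime q) :
    lraA N ⊔ lraB N q hqp.out.ne_zero = lraDelta N q :=
  le_antisymm (lra_sup_le_lraDelta _) (by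
    rintro g ⟨k, M, hg⟩
    exact lra_level_mem hNq k g M hg)

end Induction

end

end Fermat.Agent.LR
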