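/-
LR-A (helper2): main statements.

* `lraAmalgam` : `Γ₀(N) *_{Γ₀(Nq)} δ⁻¹Γ₀(N)δ ≃* Γ₀(N)[1/q]` (`Monoid.PushoutI`).
* `lraDeg : Γ₀(N q) →* Γ₀(N)`, `γ ↦ δ γ δ⁻¹ = [[a, q b],[c / q, d]]` (second degeneracy).
* `lra_glue` : homs `f₁ f₂ : Γ₀(N) →* M` with `f₁ γ = f₂ (lraDeg γ)` on `Γ₀(N q)` glue uniquely to
  a hom on `Γ₀(N)[1/q] = lraDelta N q`, with `F (γ) = f₁ γ`, `F (δ⁻¹ γ δ) = f₂ γ`.
* `lra_glue_add` : the same for `Additive (Γ₀ N) →+ A` (Mayer–Vietoris in degree one).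
-/
import Mathlib
import Fermat.Agent.Lib.LR.Amalgam.Gen

set_option autoImplicit false

namespace Fermat.Agent.LR

open Matrix MatrixGroups CongruenceSubgroup Monoid

noncomputable section

variable {N q : ℕ} [hqp : Fact q.Prime]

/-- `Γ₀(N) *_{Γ₀(Nq)} δ⁻¹Γ₀(N)δ ≃* Γ₀(N)[1/q]`. -/
def lraAmalgam (hN : N ≠ 0) (hNq : N.Coprime q) :
    PushoutI (lraIncl (lraG N q hqp.out.ne_zero) (lraC N q) (lra_pp hN hNq).le) ≃*
      ↥(lraDelta N q) :=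
  (lraEquiv (lra_pp hN hNq)).trans (MulEquiv.subgroupCongr (lra_sup_eq_lraDelta hNq))

omit hqp in
theorem lraCast_mem_lraDelta (γ : Gamma0 N) : lraCast γ.1 ∈ lraDelta N q :=
  lraA_le_lraDelta (lraCast_mem_lraA.2 γ.2)

omit hqp in
theorem lraConjCast_mem_lraDelta (hq : q ≠ 0) (γ : Gamma0 N) :
    (lraConj q hq).symm (lraCast γ.1) ∈ lraDelta N q :=
  lraB_le_lraDelta hq (lraConj_symm_mem_lraB γ.2)

omit hqp in
theorem lra_dvd_of_mem_Gamma0_mul {γ : SL(2, ℤ)} (hγ : γ ∈ Gamma0 (N * q)) :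
    γ 1 0 = q * (γ 1 0 / q) := by
  rw [lra_Gamma0_mem_iff_dvd] at hγ
  have : (q : ℤ) ∣ γ 1 0 := dvd_trans ⟨(N : ℤ), by push_cast; ring⟩ hγ
  exact (Int.mul_ediv_cancel' this).symm

/-- The second degeneracy `Γ₀(N q) → Γ₀(N)`, `γ ↦ δ γ δ⁻¹ = [[a, q b],[c / q, d]]`. -/
def lraDegFun (γ : Gamma0 (N * q)) : SL(2, ℤ) :=
  lraDegMat q γ.1 (γ.1 1 0 / q) (lra_dvd_of_mem_Gamma0_mul γ.2)

omit hqp in
theorem lraCast_lraDegFun (hq : q ≠ 0) (γ : Gamma0 (N * q)) :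
    lraCast (lraDegFun γ) = lraConj q hq (lraCast γ.1) :=
  (lraConj_lraCast hq γ.1 _ _).symm

omit hqp in
theorem lraDegFun_mem (hq : q ≠ 0) (γ : Gamma0 (N * q)) : lraDegFun γ ∈ Gamma0 N := by
  have h : lraCast γ.1 ∈ lraC N q := lraCast_mem_lraC.2 γ.2
  have h2 := lraC_le_lraB hq h
  rw [mem_lraB, ← lraCast_lraDegFun hq γ, lraCast_mem_lraA] at h2
  exact h2

/-- The second degeneracy as a group homomorphism. -/
def lraDeg (N q : ℕ) (hq : q ≠ 0) : Gamma0 (N * q) →* Gamma0 N where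
  toFun γ := ⟨lraDegFun γ, lraDegFun_mem hq γ⟩
  map_one' := by
    apply Subtype.ext
    apply lraCast_injective
    rw [lraCast_lraDegFun hq]
    simp
  map_mul' γ γ' := by
    apply Subtype.ext
    apply lraCast_injective
    show lraCast (lraDegFun (γ * γ')) = lraCast (lraDegFun γ * lraDegFun γ')
    rw [map_mul, lraCast_lraDegFun hq, lraCast_lraDegFun hq, lraCast_lraDegFun hq]
    simp

omit hqp in
theorem lraCast_lraDeg (hq : q ≠ 0) (γ : Gamma0 (N * q)) :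
    lraCast (lraDeg N q hq γ).1 = lraConj q hq (lraCast γ.1) := lraCast_lraDegFun hq γ

omit hqp in
theorem lraDeg_entries (hq : q ≠ 0) (γ : Gamma0 (N * q)) :
    (lraDeg N q hq γ).1 0 0 = γ.1 0 0 ∧ (lraDeg N q hq γ).1 0 1 = q * γ.1 0 1 ∧
      (q : ℤ) * (lraDeg N q hq γ).1 1 0 = γ.1 1 0 ∧ (lraDeg N q hq γ).1 1 1 = γ.1 1 1 :=
  ⟨rfl, rfl, (lra_dvd_of_mem_Gamma0_mul γ.2).symm, rfl⟩

/-- `Γ₀(N) ≃* lraA N`. -/
def lraEquivA (N : ℕ) : Gamma0 N ≃* ↥(lraA N) :=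
  (Gamma0 N).equivMapOfInjective lraCast lraCast_injective

omit hqp in
theorem lraEquivA_coe (γ : Gamma0 N) : ((lraEquivA N γ : ↥(lraA N)) : SL(2, ℚ)) = lraCast γ.1 := rfl

omit hqp in
theorem lraEquivA_symm_apply (γ : Gamma0 N) (h : lraCast γ.1 ∈ lraA N) :
    (lraEquivA N).symm ⟨lraCast γ.1, h⟩ = γ := by
  rw [MulEquiv.symm_apply_eq]
  exact Subtype.ext rfl

/-- Two homomorphisms on `Γ₀(N)[1/q]` that agree on `Γ₀(N)` and on `δ⁻¹Γ₀(N)δ` are equal. -/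
theorem lra_hom_ext (hNq : N.Coprime q) {M' : Type*} [Monoid M'] {F F' : ↥(lraDelta N q) →* M'}
    (h₁ : ∀ γ : Gamma0 N, F ⟨lraCast γ.1, lraCast_mem_lraDelta γ⟩ =
      F' ⟨lraCast γ.1, lraCast_mem_lraDelta γ⟩)
    (h₂ : ∀ γ : Gamma0 N, F ⟨_, lraConjCast_mem_lraDelta hqp.out.ne_zero γ⟩ =
      F' ⟨_, lraConjCast_mem_lraDelta hqp.out.ne_zero γ⟩) : F = F' := by
  ext ⟨g, hg⟩
  have hg' : g ∈ lraA N ⊔ lraB N q hqp.out.ne_zero := by rw [lra_sup_eq_lraDelta hNq]; exact hg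
  rw [← Subgroup.closure_eq (lraA N), ← Subgroup.closure_eq (lraB N q hqp.out.ne_zero),
    ← Subgroup.closure_union] at hg'
  have key : ∀ (x : SL(2, ℚ)) (hx : x ∈ Subgroup.closure
      ((lraA N : Set SL(2, ℚ)) ∪ (lraB N q hqp.out.ne_zero : Set SL(2, ℚ)))),
      ∃ hx' : x ∈ lraDelta N q, F ⟨x, hx'⟩ = F' ⟨x, hx'⟩ := by
    intro x hx
    induction hx using Subgroup.closure_induction with
    | mem x hx =>
      rcases hx with hx | hx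
      · obtain ⟨γ, hγ, rfl⟩ := hx
        exact ⟨lraCast_mem_lraDelta ⟨γ, hγ⟩, h₁ ⟨γ, hγ⟩⟩
      · obtain ⟨γ, hγ, -, -, -, -, he⟩ := lra_B_entries hx
        have : x = (lraConj q hqp.out.ne_zero).symm (lraCast γ) := by rw [← he]; simp
        subst this
        exact ⟨lraConjCast_mem_lraDelta _ ⟨γ, hγ⟩, h₂ ⟨γ, hγ⟩⟩
    | one => exact ⟨one_mem _, by
        have : (⟨1, one_mem _⟩ : ↥(lraDelta N q)) = 1 := rfl
        rw [this, map_one, map_one]⟩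
    | mul x y _ _ ihx ihy =>
      obtain ⟨hx', ex⟩ := ihx
      obtain ⟨hy', ey⟩ := ihy
      refine ⟨mul_mem hx' hy', ?_⟩
      have : (⟨x * y, mul_mem hx' hy'⟩ : ↥(lraDelta N q)) = ⟨x, hx'⟩ * ⟨y, hy'⟩ := rfl
      rw [this, map_mul, map_mul, ex, ey]
    | inv x _ ihx =>
      obtain ⟨hx', ex⟩ := ihx
      refine ⟨inv_mem hx', ?_⟩
      have hmul : (⟨x⁻¹, inv_mem hx'⟩ : ↥(lraDelta N q)) * ⟨x, hx'⟩ = 1 :=
        Subtype.ext (inv_mul_cancel x)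
      have hmul' : (⟨x, hx'⟩ : ↥(lraDelta N q)) * ⟨x⁻¹, inv_mem hx'⟩ = 1 :=
        Subtype.ext (mul_inv_cancel x)
      have e1 : F ⟨x⁻¹, inv_mem hx'⟩ * F ⟨x, hx'⟩ = 1 := by rw [← map_mul, hmul, map_one]
      have e2 : F' ⟨x, hx'⟩ * F' ⟨x⁻¹, inv_mem hx'⟩ = 1 := by rw [← map_mul, hmul', map_one]
      calc F ⟨x⁻¹, inv_mem hx'⟩ = F ⟨x⁻¹, inv_mem hx'⟩ * (F' ⟨x, hx'⟩ * F' ⟨x⁻¹, inv_mem hx'⟩) := by
            rw [e2, mul_one]
        _ = (F ⟨x⁻¹, inv_mem hx'⟩ * F ⟨x, hx'⟩) * F' ⟨x⁻¹, inv_mem hx'⟩ := by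
            rw [← ex, mul_assoc]
        _ = F' ⟨x⁻¹, inv_mem hx'⟩ := by rw [e1, one_mul]
  obtain ⟨_, e⟩ := key g hg'
  exact e

/-- **Gluing** (universal property of the amalgam `Γ₀(N)[1/q] = Γ₀(N) *_{Γ₀(Nq)} δ⁻¹Γ₀(N)δ`). -/
theorem lra_glue (hN : N ≠ 0) (hNq : N.Coprime q) {M' : Type*} [Monoid M']
    (f₁ f₂ : Gamma0 N →* M')
    (hcompat : ∀ γ : Gamma0 (N * q),
      f₁ ⟨γ.1, lraCast_mem_lraA.1 (lraC_le_lraA (lraCast_mem_lraC.2 γ.2))⟩ =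
        f₂ (lraDeg N q hqp.out.ne_zero γ)) :
    ∃! F : ↥(lraDelta N q) →* M',
      (∀ γ : Gamma0 N, F ⟨lraCast γ.1, lraCast_mem_lraDelta γ⟩ = f₁ γ) ∧
      (∀ γ : Gamma0 N, F ⟨_, lraConjCast_mem_lraDelta hqp.out.ne_zero γ⟩ = f₂ γ) := by
  have hq := hqp.out.ne_zero
  -- the two homs on `lraA`, `lraB`
  let fA : ↥(lraA N) →* M' := f₁.comp (lraEquivA N).symm.toMonoidHom
  let fB : ↥(lraB N q hq) →* M' :=
    f₂.comp ((lraEquivA N).symm.toMonoidHom.comp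
      ((lraConj q hq).toMonoidHom.subgroupComap (lraA N)))
  let f : ∀ i, ↥(lraG N q hq i) →* M' := fun i =>
    match i with
    | false => fA
    | true => fB
  have hpp := lra_pp (q := q) hN hNq
  have hf : ∀ c : ↥(lraC N q), f false ⟨c, hpp.le false c.2⟩ = f true ⟨c, hpp.le true c.2⟩ := by
    rintro ⟨c, hc⟩
    obtain ⟨γ, hγ, rfl⟩ := hc
    show fA ⟨lraCast γ, _⟩ = fB ⟨lraCast γ, _⟩
    have e1 : fA ⟨lraCast γ, hpp.le false (lraCast_mem_lraC.2 hγ)⟩ =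
        f₁ ⟨γ, lraCast_mem_lraA.1 (lraC_le_lraA (lraCast_mem_lraC.2 hγ))⟩ := by
      show f₁ ((lraEquivA N).symm _) = _
      congr 1
      exact lraEquivA_symm_apply ⟨γ, _⟩ _
    have e2 : fB ⟨lraCast γ, hpp.le true (lraCast_mem_lraC.2 hγ)⟩ =
        f₂ (lraDeg N q hq ⟨γ, hγ⟩) := by
      show f₂ ((lraEquivA N).symm _) = _
      congr 1
      rw [MulEquiv.symm_apply_eq]
      apply Subtype.ext
      show lraConj q hq (lraCast γ) = lraCast (lraDeg N q hq ⟨γ, hγ⟩).1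
      rw [lraCast_lraDeg]
    rw [e1, e2]
    exact hcompat ⟨γ, hγ⟩
  obtain ⟨F0, hF0, -⟩ := lra_existsUnique_hom hpp f hf
  let F : ↥(lraDelta N q) →* M' :=
    F0.comp (MulEquiv.subgroupCongr (lra_sup_eq_lraDelta hNq)).symm.toMonoidHom
  have hF1 : ∀ γ : Gamma0 N, F ⟨lraCast γ.1, lraCast_mem_lraDelta γ⟩ = f₁ γ := by
    intro γ
    have := hF0 false ⟨lraCast γ.1, lraCast_mem_lraA.2 γ.2⟩
    show F0 _ = _
    refine Eq.trans ?_ (this.trans ?_)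
    · rfl
    · show f₁ ((lraEquivA N).symm _) = _
      congr 1
      exact lraEquivA_symm_apply γ _
  have hF2 : ∀ γ : Gamma0 N, F ⟨_, lraConjCast_mem_lraDelta hq γ⟩ = f₂ γ := by
    intro γ
    have := hF0 true ⟨(lraConj q hq).symm (lraCast γ.1), lraConj_symm_mem_lraB γ.2⟩
    show F0 _ = _
    refine Eq.trans ?_ (this.trans ?_)
    · rfl
    · show f₂ ((lraEquivA N).symm _) = _
      congr 1
      rw [MulEquiv.symm_apply_eq]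
      apply Subtype.ext
      show lraConj q hq ((lraConj q hq).symm (lraCast γ.1)) = lraCast γ.1
      simp
  refine ⟨F, ⟨hF1, hF2⟩, ?_⟩
  rintro F' ⟨h1, h2⟩
  apply lra_hom_ext hNq
  · intro γ; rw [h1, hF1]
  · intro γ; rw [h2, hF2]

/-- **Mayer–Vietoris in degree one**: additive version of `lra_glue`. -/
theorem lra_glue_add (hN : N ≠ 0) (hNq : N.Coprime q) {A : Type*} [AddCommGroup A]
    (φ₁ φ₂ : Additive (Gamma0 N) →+ A)
    (hcompat : ∀ γ : Gamma0 (N * q),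
      φ₁ (Additive.ofMul ⟨γ.1, lraCast_mem_lraA.1 (lraC_le_lraA (lraCast_mem_lraC.2 γ.2))⟩) =
        φ₂ (Additive.ofMul (lraDeg N q hqp.out.ne_zero γ))) :
    ∃! Φ : Additive ↥(lraDelta N q) →+ A,
      (∀ γ : Gamma0 N, Φ (Additive.ofMul ⟨lraCast γ.1, lraCast_mem_lraDelta γ⟩) =
        φ₁ (Additive.ofMul γ)) ∧
      (∀ γ : Gamma0 N, Φ (Additive.ofMul ⟨_, lraConjCast_mem_lraDelta hqp.out.ne_zero γ⟩) =
        φ₂ (Additive.ofMul γ)) := by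
  obtain ⟨F, ⟨hF1, hF2⟩, huniq⟩ := lra_glue hN hNq
    (AddMonoidHom.toMultiplicativeRight φ₁) (AddMonoidHom.toMultiplicativeRight φ₂) (by
      intro γ
      exact congrArg Multiplicative.ofAdd (hcompat γ))
  refine ⟨MonoidHom.toAdditiveLeft F, ⟨?_, ?_⟩, ?_⟩
  · intro γ
    exact congrArg Multiplicative.toAdd (hF1 γ)
  · intro γ
    exact congrArg Multiplicative.toAdd (hF2 γ)
  · rintro Φ' ⟨h1, h2⟩
    have := huniq (AddMonoidHom.toMultiplicativeRight Φ') ⟨fun γ =>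
      congrArg Multiplicative.ofAdd (h1 γ), fun γ => congrArg Multiplicative.ofAdd (h2 γ)⟩
    rw [← this]
    rfl

end

end Fermat.Agent.LR
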